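import Mathlib
import Fermat.Prelude.Def_ModularCurve_PeriodHomPair
import Fermat.Prelude.Def_CuspForm_HeckeLocal
import Fermat.Prelude.Def_CuspForm_HeckeEvalForms
import Fermat.Prelude.Def_HeckeGalois_EichlerShimura
import Fermat.Prelude.Def_ModularCurve_ModularUnit
import Fermat.Prelude.Sol.S_ModularForm_heckeT_slash_eq_self_of_mem_Gamma0

/-!
# S16, lower bound `n ∣ |T/I|`: interfaces (helper63)

Route: the Shimura class `c : Γ₀(p) → ℤ/n` is a parabolic (and elliptic-trivial) Eisenstein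
eigenclass; it lifts to a parabolic integral class, which by Eichler-Shimura (S21) is the
period class of a pair of cusp forms; Hecke operators act compatibly on periods.

All statements are `Prop`-valued definitions; the assembly is in `S16LB.Assembly`.
-/

set_option autoImplicit false

open CongruenceSubgroup Matrix.SpecialLinearGroup UpperHalfPlane
open scoped MatrixGroups

namespace Fermat.Agent.H63

open P2MW.S_ModularForm_heckeT_slash_eq_self_of_mem_Gamma0.ModularForm.HeckeSlashInvariance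

/-- `(σ, κ)` is rewriting data for the family `α` at `γ`:
`α x * γ = κ x * α (σ x)` with `κ x ∈ Γ₀(N)`. -/
def IsRewriting (N : ℕ) {X : Type} (α : X → GL (Fin 2) ℝ) (γ : Gamma0 N)
    (σ : Equiv.Perm X) (κ : X → Gamma0 N) : Prop :=
  ∀ x, α x * mapGL ℝ (γ : SL(2, ℤ)) = mapGL ℝ ((κ x : Gamma0 N) : SL(2, ℤ)) * α (σ x)

/-- A homomorphism on `Γ₀(N)` kills the elliptic elements (trace `0`, `1` or `-1`). -/
def KillsEll (N : ℕ) {A : Type*} [AddCommGroup A] (φ : Additive (Gamma0 N) →+ A) : Prop :=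
  ∀ γ : Gamma0 N,
    ((((γ : SL(2, ℤ)) : Matrix (Fin 2) (Fin 2) ℤ).trace = 0) ∨
      (((γ : SL(2, ℤ)) : Matrix (Fin 2) (Fin 2) ℤ).trace = 1) ∨
      (((γ : SL(2, ℤ)) : Matrix (Fin 2) (Fin 2) ℤ).trace = -1)) →
    φ (Additive.ofMul γ) = 0

/-- **LB-LIFT.** Every homomorphism `Γ₀(N) → ℤ/m` that kills the parabolic and the elliptic
elements is the reduction of a parabolic homomorphism `Γ₀(N) → ℤ`. -/
def LiftStatement (N m : ℕ) : Prop :=
  ∀ c : Additive (Gamma0 N) →+ ZMod m,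
    ModularCurve.Period.IsParabolicHom (Gamma0 N) c → KillsEll N c →
    ∃ c' : Additive (Gamma0 N) →+ ℤ,
      ModularCurve.Period.IsParabolicHom (Gamma0 N) c' ∧
      ∀ γ : Gamma0 N, ((c' (Additive.ofMul γ) : ℤ) : ZMod m) = c (Additive.ofMul γ)

/-- **LB-SHIMURA.** The Shimura class: a homomorphism `Γ₀(p) → ℤ/n`, `n = eisensteinNumerator p`,
which takes the value `1`, kills parabolic and elliptic elements, and is an Eisenstein
eigenclass for the Hecke rewriting data of `T_ℓ` (`ℓ ≠ p`) and of `U_p`. -/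
def ShimuraStatement (p : ℕ) : Prop :=
  ∃ c : Additive (Gamma0 p) →+ ZMod (ModularCurve.eisensteinNumerator p),
    ModularCurve.Period.IsParabolicHom (Gamma0 p) c ∧ KillsEll p c ∧
    (∃ γ : Gamma0 p, c (Additive.ofMul γ) = 1) ∧
    (∀ (ℓ : ℕ) (hℓ : ℓ.Prime), ¬ ℓ ∣ p → ∀ (γ : Gamma0 p) (σ : Equiv.Perm (OnePoint (ZMod ℓ)))
      (κ : OnePoint (ZMod ℓ) → Gamma0 p), IsRewriting p (heckeRep ℓ) γ σ κ →
      haveI : NeZero ℓ := ⟨hℓ.ne_zero⟩
      ∑ x, c (Additive.ofMul (κ x)) = ((1 + ℓ : ℕ) : ZMod (ModularCurve.eisensteinNumerator p))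
        * c (Additive.ofMul γ)) ∧
    (∀ (q : ℕ) (hq : q.Prime), q ∣ p → ∀ (γ : Gamma0 p) (σ : Equiv.Perm (ZMod q))
      (κ : ZMod q → Gamma0 p),
      IsRewriting p (fun x : ZMod q => ModularForm.heckeMatrix q x.val) γ σ κ →
      haveI : NeZero q := ⟨hq.ne_zero⟩
      ∑ x, c (Additive.ofMul (κ x)) = c (Additive.ofMul γ))

/-- **LB-PERIOD.** Hecke operators act on period classes by the transfer formula
(any level `N`). -/
def HeckePeriodStatement (N : ℕ) [NeZero N] : Prop :=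
  (∀ (ℓ : ℕ) (hℓ : ℓ.Prime) (hℓN : ¬ ℓ ∣ N) (f g : CuspForm (Gamma0 N) 2) (γ : Gamma0 N)
      (σ : Equiv.Perm (OnePoint (ZMod ℓ))) (κ : OnePoint (ZMod ℓ) → Gamma0 N),
      IsRewriting N (heckeRep ℓ) γ σ κ →
      haveI : NeZero ℓ := ⟨hℓ.ne_zero⟩
      ModularCurve.periodHomPair N
          (CuspForm.heckeTLin 2 hℓ hℓN f, CuspForm.heckeTLin 2 hℓ hℓN g) (Additive.ofMul γ)
        = ∑ x, ModularCurve.periodHomPair N (f, g) (Additive.ofMul (κ x))) ∧
  (∀ (q : ℕ) (hq : q.Prime) (hqN : q ∣ N) (f g : CuspForm (Gamma0 N) 2) (γ : Gamma0 N)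
      (σ : Equiv.Perm (ZMod q)) (κ : ZMod q → Gamma0 N),
      IsRewriting N (fun x : ZMod q => ModularForm.heckeMatrix q x.val) γ σ κ →
      haveI : NeZero q := ⟨hq.ne_zero⟩
      ModularCurve.periodHomPair N
          (CuspForm.heckeULin 2 hqN f, CuspForm.heckeULin 2 hqN g) (Additive.ofMul γ)
        = ∑ x, ModularCurve.periodHomPair N (f, g) (Additive.ofMul (κ x)))

/-- The Eichler-Shimura statement S21 at level `N` (as a hypothesis for the assembly). -/
def EichlerShimuraStatement (N : ℕ) : Prop :=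
  Function.Injective (ModularCurve.periodHomPair N)
    ∧ LinearMap.range (ModularCurve.periodHomPair N)
        = ModularCurve.Period.parabolicHoms ℂ (CongruenceSubgroup.Gamma0 N) ℂ

/-- **LB (final).** Every Hecke polynomial that acts as `0` on `S₂(Γ₀(p))` has Eisenstein value
divisible by `n = eisensteinNumerator p`. -/
def LowerBoundStatement (p : ℕ) [NeZero p] : Prop :=
  ∀ t : ModularCurve.HeckeAlg, CuspForm.heckeEvalForms p 2 t = 0 →
    ((ModularCurve.eisensteinNumerator p : ℕ) : ℤ) ∣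
      MvPolynomial.aeval (R := ℤ) (ModularCurve.eisensteinSystem p) t

end Fermat.Agent.H63
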