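import Fermat.Agent.H63.S16LB.Interfaces

/-!
# Existence of rewriting data for the prelude Hecke families (helper63)
-/

set_option autoImplicit false

open CongruenceSubgroup Matrix.SpecialLinearGroup UpperHalfPlane
open scoped MatrixGroups

namespace Fermat.Agent.H63

open P2MW.S_ModularForm_heckeT_slash_eq_self_of_mem_Gamma0.ModularForm.HeckeSlashInvariance

/-- Rewriting data exist for `T_ℓ`, `ℓ ∤ N`. -/
theorem exists_isRewriting_T (N ℓ : ℕ) (hℓ : ℓ.Prime) (hℓN : ¬ ℓ ∣ N) (γ : Gamma0 N) :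
    ∃ (σ : Equiv.Perm (OnePoint (ZMod ℓ))) (κ : OnePoint (ZMod ℓ) → Gamma0 N),
      IsRewriting N (heckeRep ℓ) γ σ κ := by
  classical
  haveI : Fact ℓ.Prime := ⟨hℓ⟩
  have hcN : (N : ℤ) ∣ (γ : SL(2, ℤ)) 1 0 :=
    (ZMod.intCast_zmod_eq_zero_iff_dvd _ _).mp (CongruenceSubgroup.Gamma0_mem.mp γ.2)
  have h := fun x => heckeRep_mul hℓN (γ : SL(2, ℤ)) hcN x
  choose κ hκ hmul using h
  refine ⟨MulAction.toPerm (redMatrix ℓ (γ : SL(2, ℤ))),
    fun x => ⟨κ x, CongruenceSubgroup.Gamma0_mem.mpr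
      ((ZMod.intCast_zmod_eq_zero_iff_dvd _ _).mpr (hκ x))⟩, ?_⟩
  intro x
  exact hmul x

/-- Rewriting data exist for `U_q`, `q ∣ N`. -/
theorem exists_isRewriting_U (N q : ℕ) [NeZero q] (hqN : q ∣ N) (γ : Gamma0 N) :
    ∃ (σ : Equiv.Perm (ZMod q)) (κ : ZMod q → Gamma0 N),
      IsRewriting N (fun x : ZMod q => ModularForm.heckeMatrix q x.val) γ σ κ := by
  classical
  have hcN : (N : ℤ) ∣ (γ : SL(2, ℤ)) 1 0 :=
    (ZMod.intCast_zmod_eq_zero_iff_dvd _ _).mp (CongruenceSubgroup.Gamma0_mem.mp γ.2)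
  have hc : (q : ℤ) ∣ (γ : SL(2, ℤ)) 1 0 := (Int.natCast_dvd_natCast.mpr hqN).trans hcN
  have h := fun x => heckeMatrix_mul_of_dvd (γ : SL(2, ℤ)) hc x
  choose κ hκ hmul using h
  refine ⟨affinePerm (γ : SL(2, ℤ)) ((ZMod.intCast_zmod_eq_zero_iff_dvd _ _).mpr hc),
    fun x => ⟨κ x, ?_⟩, ?_⟩
  · rw [CongruenceSubgroup.Gamma0_mem, hκ x]
    push_cast
    rw [CongruenceSubgroup.Gamma0_mem.mp γ.2, mul_zero]
  · intro x
    exact hmul x

end Fermat.Agent.H63
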