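import Fermat.Agent.H63.S16LB.Interfaces
import Fermat.Agent.H63.S16LB.Rewriting

/-!
# S16 lower bound: assembly (helper63)

`lowerBound_of_parts`: Shimura class + lifting + Hecke action on periods + Eichler-Shimura
imply that every Hecke polynomial killing `S₂(Γ₀(p))` has Eisenstein value divisible by `n`.
-/

set_option autoImplicit false

open CongruenceSubgroup Matrix.SpecialLinearGroup UpperHalfPlane
open scoped MatrixGroups

namespace Fermat.Agent.H63

open P2MW.S_ModularForm_heckeT_slash_eq_self_of_mem_Gamma0.ModularForm.HeckeSlashInvariance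
open ModularCurve CuspForm

section

variable (N : ℕ) [NeZero N]

/-- The diagonal action of a Hecke polynomial on pairs of cusp forms. -/
noncomputable def pairAct (t : HeckeAlg) :
    (CuspForm (Gamma0 N) 2 × CuspForm (Gamma0 N) 2) →ₗ[ℂ]
      (CuspForm (Gamma0 N) 2 × CuspForm (Gamma0 N) 2) :=
  LinearMap.prodMap
    ((heckeEvalForms N 2 t : heckeAlgebra N 2 ∅) : Module.End ℂ (CuspForm (Gamma0 N) 2))
    ((heckeEvalForms N 2 t : heckeAlgebra N 2 ∅) : Module.End ℂ (CuspForm (Gamma0 N) 2))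

theorem pairAct_add (s t : HeckeAlg) : pairAct N (s + t) = pairAct N s + pairAct N t := by
  unfold pairAct
  rw [map_add]
  ext y <;> simp

theorem pairAct_mul (s t : HeckeAlg) (y : CuspForm (Gamma0 N) 2 × CuspForm (Gamma0 N) 2) :
    pairAct N (s * t) y = pairAct N s (pairAct N t y) := by
  unfold pairAct
  rw [map_mul]
  rfl

theorem pairAct_C (a : ℤ) (y : CuspForm (Gamma0 N) 2 × CuspForm (Gamma0 N) 2) :
    pairAct N (MvPolynomial.C a) y = (a : ℂ) • y := by
  unfold pairAct
  rw [heckeEvalForms_C]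
  ext1
  · simp [Int.cast_smul_eq_zsmul]
  · simp [Int.cast_smul_eq_zsmul]

theorem pairAct_of_eq_zero {t : HeckeAlg} (ht : heckeEvalForms N 2 t = 0) :
    pairAct N t = 0 := by
  unfold pairAct
  rw [ht]
  ext y <;> simp

end

/-- Periods with values in `n ℤ`. -/
def PeriodsIn (N : ℕ) (n : ℕ) (y : CuspForm (Gamma0 N) 2 × CuspForm (Gamma0 N) 2) : Prop :=
  ∀ γ : Gamma0 N, ∃ k : ℤ, periodHomPair N y (Additive.ofMul γ) = (n : ℂ) * (k : ℂ)

theorem periodsIn_zero (N n : ℕ) : PeriodsIn N n 0 := by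
  intro γ
  exact ⟨0, by simp⟩

theorem PeriodsIn.add {N n : ℕ} {y z : CuspForm (Gamma0 N) 2 × CuspForm (Gamma0 N) 2}
    (hy : PeriodsIn N n y) (hz : PeriodsIn N n z) : PeriodsIn N n (y + z) := by
  intro γ
  obtain ⟨k, hk⟩ := hy γ
  obtain ⟨l, hl⟩ := hz γ
  refine ⟨k + l, ?_⟩
  rw [map_add, AddMonoidHom.add_apply, hk, hl]
  push_cast
  ring

theorem PeriodsIn.int_smul {N n : ℕ} {y : CuspForm (Gamma0 N) 2 × CuspForm (Gamma0 N) 2}
    (hy : PeriodsIn N n y) (a : ℤ) : PeriodsIn N n ((a : ℂ) • y) := by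
  intro γ
  obtain ⟨k, hk⟩ := hy γ
  refine ⟨a * k, ?_⟩
  rw [map_smul, AddMonoidHom.smul_apply, hk]
  push_cast
  simp only [smul_eq_mul]
  ring

theorem periodsIn_sum_of {N n : ℕ} {X : Type} [Fintype X]
    {y : CuspForm (Gamma0 N) 2 × CuspForm (Gamma0 N) 2} (hy : PeriodsIn N n y)
    (κ : X → Gamma0 N) :
    ∃ k : ℤ, ∑ x, periodHomPair N y (Additive.ofMul (κ x)) = (n : ℂ) * (k : ℂ) := by
  classical
  choose k hk using fun x => hy (κ x)
  refine ⟨∑ x, k x, ?_⟩
  rw [Finset.sum_congr rfl fun x _ => hk x]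
  push_cast
  rw [Finset.mul_sum]

/-- **Assembly of the lower bound.** -/
theorem lowerBound_of_parts (p : ℕ) [Fact p.Prime]
    (hS : ShimuraStatement p) (hL : LiftStatement p (eisensteinNumerator p))
    (hP : HeckePeriodStatement p) (hES : EichlerShimuraStatement p) :
    LowerBoundStatement p := by
  classical
  obtain ⟨c, hcpar, hcell, ⟨γ₀, hγ₀⟩, hcT, hcU⟩ := hS
  obtain ⟨c', hc'par, hc'red⟩ := hL c hcpar hcell
  -- the complex-valued lift and its preimage under the period map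
  let cC : Additive (Gamma0 p) →+ ℂ := (Int.castAddHom ℂ).comp c'
  have hcCapp : ∀ γ : Gamma0 p, cC (Additive.ofMul γ) = ((c' (Additive.ofMul γ) : ℤ) : ℂ) :=
    fun γ => rfl
  have hcC : cC ∈ Period.parabolicHoms ℂ (Gamma0 p) ℂ := by
    intro γ hγ
    rw [hcCapp, hc'par γ hγ]
    simp
  rw [← hES.2] at hcC
  obtain ⟨x, hx⟩ := hcC
  have hxapp : ∀ γ : Gamma0 p,
      periodHomPair p x (Additive.ofMul γ) = ((c' (Additive.ofMul γ) : ℤ) : ℂ) := by
    intro γ
    rw [hx]
    rfl
  -- Hecke generators: stability of `PeriodsIn` and the Eisenstein congruence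
  have hgen : ∀ (ℓ : Nat.Primes) (y : CuspForm (Gamma0 p) 2 × CuspForm (Gamma0 p) 2)
      (γ : Gamma0 p), ∃ (X : Type) (_ : Fintype X) (κ : X → Gamma0 p),
        periodHomPair p (pairAct p (heckeGen ℓ) y) (Additive.ofMul γ)
          = ∑ x, periodHomPair p y (Additive.ofMul (κ x)) ∧
        ∑ x, c (Additive.ofMul (κ x))
          = ((eisensteinSystem p ℓ : ℤ) : ZMod (eisensteinNumerator p)) * c (Additive.ofMul γ) := by
    intro ℓ y γ
    by_cases hℓ : (ℓ : ℕ) ∣ p
    · haveI : NeZero (ℓ : ℕ) := ⟨ℓ.2.ne_zero⟩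
      obtain ⟨σ, κ, hrw⟩ := exists_isRewriting_U p (ℓ : ℕ) hℓ γ
      refine ⟨ZMod (ℓ : ℕ), inferInstance, κ, ?_, ?_⟩
      · have h := hP.2 (ℓ : ℕ) ℓ.2 hℓ y.1 y.2 γ σ κ hrw
        have hact : pairAct p (heckeGen ℓ) y
            = (CuspForm.heckeULin 2 hℓ y.1, CuspForm.heckeULin 2 hℓ y.2) := by
          unfold pairAct
          rw [heckeEvalForms_heckeGen_of_dvd hℓ]
          rfl
        rw [hact]
        convert h using 2
      · have h := hcU (ℓ : ℕ) ℓ.2 hℓ γ σ κ hrw
        rw [eisensteinSystem_of_dvd hℓ]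
        simpa using h
    · haveI : NeZero (ℓ : ℕ) := ⟨ℓ.2.ne_zero⟩
      obtain ⟨σ, κ, hrw⟩ := exists_isRewriting_T p (ℓ : ℕ) ℓ.2 hℓ γ
      refine ⟨OnePoint (ZMod (ℓ : ℕ)), inferInstance, κ, ?_, ?_⟩
      · have h := hP.1 (ℓ : ℕ) ℓ.2 hℓ y.1 y.2 γ σ κ hrw
        have hact : pairAct p (heckeGen ℓ) y
            = (CuspForm.heckeTLin 2 ℓ.2 hℓ y.1, CuspForm.heckeTLin 2 ℓ.2 hℓ y.2) := by
          unfold pairAct
          rw [heckeEvalForms_heckeGen_of_not_dvd hℓ]
          rfl
        rw [hact]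
        convert h using 2
      · have h := hcT (ℓ : ℕ) ℓ.2 hℓ γ σ κ hrw
        rw [eisensteinSystem_of_not_dvd hℓ]
        simpa using h
  have hstab : ∀ (ℓ : Nat.Primes) (y : CuspForm (Gamma0 p) 2 × CuspForm (Gamma0 p) 2),
      PeriodsIn p (eisensteinNumerator p) y → PeriodsIn p (eisensteinNumerator p) (pairAct p (heckeGen ℓ) y) := by
    intro ℓ y hy γ
    obtain ⟨X, hX, κ, h1, -⟩ := hgen ℓ y γ
    rw [h1]
    exact periodsIn_sum_of hy κ
  have heig : ∀ ℓ : Nat.Primes,
      PeriodsIn p (eisensteinNumerator p) (pairAct p (heckeGen ℓ) x + ((-(eisensteinSystem p ℓ) : ℤ) : ℂ) • x) := by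
    intro ℓ γ
    obtain ⟨X, hX, κ, h1, h2⟩ := hgen ℓ x γ
    have hdvd : ((eisensteinNumerator p : ℕ) : ℤ) ∣ ∑ x, c' (Additive.ofMul (κ x))
        - eisensteinSystem p ℓ * c' (Additive.ofMul γ) := by
      rw [← ZMod.intCast_zmod_eq_zero_iff_dvd]
      push_cast
      simp only [hc'red]
      rw [h2]
      ring
    obtain ⟨k, hk⟩ := hdvd
    refine ⟨k, ?_⟩
    rw [map_add, AddMonoidHom.add_apply, h1, map_smul, AddMonoidHom.smul_apply, hxapp]
    simp only [hxapp, smul_eq_mul]
    have hk' := congrArg (fun z : ℤ => (z : ℂ)) hk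
    push_cast at hk' ⊢
    linear_combination hk'
  -- induction over polynomials
  have key : ∀ t : HeckeAlg,
      PeriodsIn p (eisensteinNumerator p) (pairAct p t x
        + ((-(MvPolynomial.aeval (R := ℤ) (eisensteinSystem p) t) : ℤ) : ℂ) • x) := by
    intro t
    induction t using MvPolynomial.induction_on with
    | C a =>
      rw [pairAct_C, MvPolynomial.aeval_C]
      have : (a : ℂ) • x + ((-(algebraMap ℤ ℤ a) : ℤ) : ℂ) • x = 0 := by
        rw [← add_smul]
        simp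
      rw [this]
      exact periodsIn_zero p (eisensteinNumerator p)
    | add s t hs ht =>
      have : pairAct p (s + t) x
          + ((-(MvPolynomial.aeval (R := ℤ) (eisensteinSystem p) (s + t)) : ℤ) : ℂ) • x
          = (pairAct p s x + ((-(MvPolynomial.aeval (R := ℤ) (eisensteinSystem p) s) : ℤ) : ℂ) • x)
            + (pairAct p t x
              + ((-(MvPolynomial.aeval (R := ℤ) (eisensteinSystem p) t) : ℤ) : ℂ) • x) := by
        rw [pairAct_add, map_add]
        push_cast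
        simp only [LinearMap.add_apply]
        module
      rw [this]
      exact hs.add ht
    | mul_X t ℓ ht =>
      have hcomm : pairAct p (t * MvPolynomial.X ℓ) x
          = pairAct p (heckeGen ℓ) (pairAct p t x) := by
        rw [mul_comm, pairAct_mul]
        rfl
      have : pairAct p (t * MvPolynomial.X ℓ) x
          + ((-(MvPolynomial.aeval (R := ℤ) (eisensteinSystem p) (t * MvPolynomial.X ℓ)) : ℤ)
              : ℂ) • x
          = pairAct p (heckeGen ℓ)
              (pairAct p t x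
                + ((-(MvPolynomial.aeval (R := ℤ) (eisensteinSystem p) t) : ℤ) : ℂ) • x)
            + ((MvPolynomial.aeval (R := ℤ) (eisensteinSystem p) t : ℤ) : ℂ)
              • (pairAct p (heckeGen ℓ) x + ((-(eisensteinSystem p ℓ) : ℤ) : ℂ) • x) := by
        rw [hcomm, map_mul, MvPolynomial.aeval_X, map_add, map_smul]
        push_cast
        module
      rw [this]
      exact (hstab ℓ _ ht).add ((heig ℓ).int_smul _)
  -- conclusion
  intro t ht
  have h := key t
  rw [pairAct_of_eq_zero p ht, LinearMap.zero_apply, zero_add] at h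
  obtain ⟨k, hk⟩ := h γ₀
  rw [map_smul, AddMonoidHom.smul_apply, hxapp, smul_eq_mul] at hk
  have hk' : -(MvPolynomial.aeval (R := ℤ) (eisensteinSystem p) t) * c' (Additive.ofMul γ₀)
      = ((eisensteinNumerator p : ℕ) : ℤ) * k := by
    exact_mod_cast hk
  have hz := congrArg (fun z : ℤ => (z : ZMod (eisensteinNumerator p))) hk'
  push_cast at hz
  rw [hc'red, hγ₀] at hz
  simp only [mul_one, ZMod.natCast_self, zero_mul, neg_eq_zero] at hz
  exact (ZMod.intCast_zmod_eq_zero_iff_dvd _ _).mp hz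

end Fermat.Agent.H63
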