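import Fermat.Agent.H63.S16LB.Assembly
import Fermat.Agent.H15.S16Interfaces
import Fermat.Agent.H20.S16.Top

/-!
# S16 lower bound: bridge to the top-level interfaces (helper63)

`LowerBoundStatement p` (Hecke polynomials killing `S₂(Γ₀(p))`) implies the kernel forms
`H15.S16LowerStatement p` and `H20.S16.LBKer p` (Hecke polynomials killing the integral lattice),
given an integral structure (S23).
-/

set_option autoImplicit false

open CongruenceSubgroup

namespace Fermat.Agent.H63

open ModularCurve CuspForm

theorem heckeEvalForms_eq_zero_of_latticeRestrictHom (p : ℕ) [NeZero p]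
    (hint : HasIntegralStructure p 2) (t : HeckeAlg)
    (ht : latticeRestrictHom p ∅ (heckeEvalForms p 2 t) = 0) :
    heckeEvalForms p 2 t = 0 := by
  apply (latticeRestrictHom_bijective p ∅ hint).1
  rw [ht, map_zero]

/-- Bridge to helper15's form of the lower bound. -/
theorem s16Lower_of_lowerBound (p : ℕ) [Fact p.Prime] (hint : HasIntegralStructure p 2)
    (h : LowerBoundStatement p) : Fermat.Agent.H15.S16LowerStatement p := by
  intro P hP
  exact h P (heckeEvalForms_eq_zero_of_latticeRestrictHom p hint P hP)

/-- Bridge to helper20's form of the lower bound. -/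
theorem lbKer_of_lowerBound (p : ℕ) [Fact p.Prime] (hint : HasIntegralStructure p 2)
    (h : LowerBoundStatement p) : Fermat.Agent.H20.S16.LBKer p := by
  intro P hP
  exact h P (heckeEvalForms_eq_zero_of_latticeRestrictHom p hint P hP)

/-- The lower bound of S16 from its four parts and the integral structure. -/
theorem s16Lower_of_parts (p : ℕ) [Fact p.Prime] (hint : HasIntegralStructure p 2)
    (hS : ShimuraStatement p) (hL : LiftStatement p (eisensteinNumerator p))
    (hP : HeckePeriodStatement p) (hES : EichlerShimuraStatement p) :
    Fermat.Agent.H15.S16LowerStatement p :=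
  s16Lower_of_lowerBound p hint (lowerBound_of_parts p hS hL hP hES)

/-- The lower bound of S16 (helper20's kernel form) from its four parts and the integral
structure. -/
theorem lbKer_of_parts (p : ℕ) [Fact p.Prime] (hint : HasIntegralStructure p 2)
    (hS : ShimuraStatement p) (hL : LiftStatement p (eisensteinNumerator p))
    (hP : HeckePeriodStatement p) (hES : EichlerShimuraStatement p) :
    Fermat.Agent.H20.S16.LBKer p :=
  lbKer_of_lowerBound p hint (lowerBound_of_parts p hS hL hP hES)

end Fermat.Agent.H63
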