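import Fermat.Agent.H63.S16LB.Interfaces
import Fermat.Agent.H63.S21A
import Fermat.Agent.H31.PeriodBasic

/-!
# S16 lower bound: Hecke operators act on periods by the transfer formula (helper63)

`heckePeriodStatement N : HeckePeriodStatement N`.
-/

set_option autoImplicit false

open CongruenceSubgroup Matrix.SpecialLinearGroup UpperHalfPlane
open scoped MatrixGroups ModularForm

namespace Fermat.Agent.H63

open P2MW.S_ModularForm_heckeT_slash_eq_self_of_mem_Gamma0.ModularForm.HeckeSlashInvariance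
open ModularCurve ModularCurve.Period

/-- Chain rule for the Möbius action of a matrix of positive determinant:
if `F' = f` then `(F ∘ g)' = f ∣[2] g`. -/
theorem hasDerivAt_comp_smul_GL (F f : ℍ → ℂ)
    (hF : ∀ τ : ℍ, HasDerivAt (F ∘ ofComplex) (f τ) ↑τ) (g : GL (Fin 2) ℝ)
    (hg : 0 < g.val.det) (τ : ℍ) :
    HasDerivAt ((fun w : ℍ => F (g • w)) ∘ ofComplex) ((f ∣[(2 : ℤ)] g) τ) ↑τ := by
  have h1 : HasDerivAt (fun z : ℂ => ((g • ofComplex z : ℍ) : ℂ))
      ((g.val.det : ℂ) / denom g τ ^ 2) τ := (hasStrictDerivAt_smul hg τ).hasDerivAt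
  have h2 : HasDerivAt (F ∘ ofComplex) (f (g • τ)) ((g • τ : ℍ) : ℂ) := hF (g • τ)
  have h2' : HasDerivAt (F ∘ ofComplex) (f (g • τ)) ((g • ofComplex (τ : ℂ) : ℍ) : ℂ) := by
    rw [ofComplex_apply]
    exact h2
  have h3 := h2'.comp (τ : ℂ) h1
  have hfun : ((F ∘ ofComplex) ∘ fun z : ℂ => ((g • ofComplex z : ℍ) : ℂ))
      = ((fun w : ℍ => F (g • w)) ∘ ofComplex) := by
    funext z
    simp only [Function.comp_apply, ofComplex_apply]
  rw [hfun] at h3
  have hval : f (g • τ) * ((g.val.det : ℂ) / denom g τ ^ 2) = (f ∣[(2 : ℤ)] g) τ := by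
    rw [ModularForm.slash_apply]
    have hg' : 0 < g.det.val := by
      rw [Matrix.GeneralLinearGroup.val_det_apply]
      exact hg
    have hσ : σ g = .refl ℝ ℂ := by rw [σ, if_pos hg']
    have habs : |g.det.val| = g.val.det := by
      rw [Matrix.GeneralLinearGroup.val_det_apply]
      exact abs_of_pos hg
    rw [hσ, habs, zpow_neg]
    simp only [Int.reduceSub, zpow_one]
    rw [div_eq_mul_inv, mul_assoc]
    rfl
  rw [hval] at h3
  exact h3

/-- **General transfer formula.** If `h = ∑ₓ f ∣[2] αₓ` for a finite family of matrices of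
positive determinant, then the periods of `h` are given by any rewriting data. -/
theorem periodMap_eq_sum_of_isRewriting (N : ℕ) [NeZero N] {X : Type} [Fintype X]
    (α : X → GL (Fin 2) ℝ) (hα : ∀ x, 0 < (α x).val.det)
    (f h : CuspForm (Gamma0 N) 2)
    (hh : (⇑h : ℍ → ℂ) = ∑ x, (⇑f : ℍ → ℂ) ∣[(2 : ℤ)] α x)
    (γ : Gamma0 N) (σ : Equiv.Perm X) (κ : X → Gamma0 N) (hrw : IsRewriting N α γ σ κ) :
    periodMap N h (Additive.ofMul γ) = ∑ x, periodMap N f (Additive.ofMul (κ x)) := by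
  classical
  obtain ⟨F, hF⟩ := exists_hasEquivariantPrimitive N f
  obtain ⟨H, hH⟩ := exists_hasEquivariantPrimitive N h
  let G : ℍ → ℂ := fun z => ∑ x, F (α x • z)
  have hG : ∀ τ : ℍ, HasDerivAt (G ∘ ofComplex) (h τ) τ := by
    intro τ
    have h1 : ∀ x ∈ Finset.univ, HasDerivAt ((fun w : ℍ => F (α x • w)) ∘ ofComplex)
        (((⇑f : ℍ → ℂ) ∣[(2 : ℤ)] α x) τ) τ :=
      fun x _ => hasDerivAt_comp_smul_GL F f hF.1 (α x) (hα x) τ
    have h2 := HasDerivAt.fun_sum h1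
    have h3 : (h τ) = ∑ x, ((⇑f : ℍ → ℂ) ∣[(2 : ℤ)] α x) τ := by
      rw [hh, Finset.sum_apply]
    rw [h3]
    exact h2
  have hconst : ∀ z w : ℍ, G z - H z = G w - H w := by
    have hD : ∀ τ : ℍ, HasDerivAt ((fun z => G z - H z) ∘ ofComplex) 0 τ := by
      intro τ
      have := (hG τ).sub (hH.1 τ)
      rw [sub_self] at this
      exact this
    exact fun z w => Fermat.Agent.H31.const_of_hasDerivAt_zero hD z w
  have hper : ∀ x (z : ℍ), F (α x • ((γ : SL(2, ℤ)) • z))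
      = F (α (σ x) • z) + periodMap N f (Additive.ofMul (κ x)) := by
    intro x z
    have e1 : α x • ((γ : SL(2, ℤ)) • z) = ((κ x : Gamma0 N) : SL(2, ℤ)) • (α (σ x) • z) := by
      have := hrw x
      calc α x • ((γ : SL(2, ℤ)) • z) = (α x * mapGL ℝ (γ : SL(2, ℤ))) • z := by
            rw [mul_smul]; rfl
        _ = (mapGL ℝ ((κ x : Gamma0 N) : SL(2, ℤ)) * α (σ x)) • z := by rw [this]
        _ = _ := by rw [mul_smul]; rfl
    rw [e1, Fermat.Agent.H31.periodMap_apply_of_hasEquivariantPrimitive' hF (κ x) (α (σ x) • z)]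
    ring
  rw [Fermat.Agent.H31.periodMap_apply_of_hasEquivariantPrimitive' hH γ UpperHalfPlane.I]
  have hc := hconst ((γ : SL(2, ℤ)) • UpperHalfPlane.I) UpperHalfPlane.I
  have hG1 : G ((γ : SL(2, ℤ)) • UpperHalfPlane.I)
      = G UpperHalfPlane.I + ∑ x, periodMap N f (Additive.ofMul (κ x)) := by
    simp only [G]
    rw [Finset.sum_congr rfl (fun x _ => hper x UpperHalfPlane.I), Finset.sum_add_distrib,
      Equiv.sum_comp σ (fun x => F (α x • UpperHalfPlane.I))]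
  linear_combination hG1 - hc

/-! ### The `j`-conjugate rewriting data -/

theorem mapGL_jConjSL_mul_J (γ : SL(2, ℤ)) :
    mapGL ℝ (jConjSL γ) * UpperHalfPlane.J = UpperHalfPlane.J * mapGL ℝ γ := by
  ext i j
  fin_cases i <;> fin_cases j <;> simp [Matrix.mul_apply, Fin.sum_univ_two, jConjMat]

theorem J_mul_J : UpperHalfPlane.J * UpperHalfPlane.J = 1 := by
  rw [← sq, UpperHalfPlane.J_sq]

theorem mapGL_jConjSL (γ : SL(2, ℤ)) :
    mapGL ℝ (jConjSL γ) = UpperHalfPlane.J * mapGL ℝ γ * UpperHalfPlane.J := by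
  rw [← mapGL_jConjSL_mul_J, mul_assoc, J_mul_J, mul_one]

/-- Conjugating rewriting data by `J`. -/
theorem IsRewriting.jConj {N : ℕ} {X : Type} {α : X → GL (Fin 2) ℝ} {γ : Gamma0 N}
    {σ : Equiv.Perm X} {κ : X → Gamma0 N} (h : IsRewriting N α γ σ κ) :
    IsRewriting N (fun x => UpperHalfPlane.J * α x * UpperHalfPlane.J) (jConjGamma0 N γ) σ
      (fun x => jConjGamma0 N (κ x)) := by
  intro x
  show UpperHalfPlane.J * α x * UpperHalfPlane.J * mapGL ℝ (jConjSL (γ : SL(2, ℤ)))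
    = mapGL ℝ (jConjSL ((κ x : Gamma0 N) : SL(2, ℤ)))
      * (UpperHalfPlane.J * α (σ x) * UpperHalfPlane.J)
  rw [mapGL_jConjSL, mapGL_jConjSL]
  have h1 : UpperHalfPlane.J * α x * UpperHalfPlane.J
      * (UpperHalfPlane.J * mapGL ℝ (γ : SL(2, ℤ)) * UpperHalfPlane.J)
      = UpperHalfPlane.J * (α x * mapGL ℝ (γ : SL(2, ℤ))) * UpperHalfPlane.J := by
    simp only [mul_assoc]
    rw [← mul_assoc UpperHalfPlane.J UpperHalfPlane.J, J_mul_J, one_mul]
  have h2 : UpperHalfPlane.J * mapGL ℝ ((κ x : Gamma0 N) : SL(2, ℤ)) * UpperHalfPlane.J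
      * (UpperHalfPlane.J * α (σ x) * UpperHalfPlane.J)
      = UpperHalfPlane.J * (mapGL ℝ ((κ x : Gamma0 N) : SL(2, ℤ)) * α (σ x))
        * UpperHalfPlane.J := by
    simp only [mul_assoc]
    rw [← mul_assoc UpperHalfPlane.J UpperHalfPlane.J, J_mul_J, one_mul]
  rw [h1, h2, h x]

theorem det_J_mul_mul_J_pos {g : GL (Fin 2) ℝ} (hg : 0 < g.val.det) :
    0 < (UpperHalfPlane.J * g * UpperHalfPlane.J).val.det := by
  simp only [Units.val_mul, Matrix.det_mul, UpperHalfPlane.val_J, Matrix.det_fin_two_of]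
  norm_num
  exact hg

/-- The translation matrix `[[1, e], [0, 1]]`. -/
def transSL (e : ℤ) : SL(2, ℤ) := ⟨!![1, e; 0, 1], by simp [Matrix.det_fin_two_of]⟩

theorem coe_transSL (e : ℤ) :
    ((transSL e : SL(2, ℤ)) : Matrix (Fin 2) (Fin 2) ℤ) = !![1, e; 0, 1] :=
  rfl

theorem transSL_mem_Gamma0 (N : ℕ) (e : ℤ) : transSL e ∈ Gamma0 N := by
  rw [Gamma0_mem, coe_transSL]
  simp

theorem J_heckeMatrix_J_of_eq (q : ℕ) (hq : q ≠ 0) (v w : ℕ) (e : ℤ)
    (he : (v : ℤ) + (w : ℤ) = q * e) :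
    UpperHalfPlane.J * ModularForm.heckeMatrix q v * UpperHalfPlane.J
      = mapGL ℝ (transSL (-e)) * ModularForm.heckeMatrix q w := by
  ext i j
  fin_cases i <;> fin_cases j <;>
    simp [hq, Matrix.mul_apply, Fin.sum_univ_two, coe_transSL]
  have := congrArg (Int.cast : ℤ → ℝ) he
  push_cast at this
  linear_combination -this

/-- `J α_x J = T^(-e) α_(-x)`. -/
theorem exists_J_heckeMatrix_J (q : ℕ) [NeZero q] (x : ZMod q) :
    ∃ e : ℤ, UpperHalfPlane.J * ModularForm.heckeMatrix q x.val * UpperHalfPlane.J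
        = mapGL ℝ (transSL e) * ModularForm.heckeMatrix q (-x).val := by
  have hq : q ≠ 0 := NeZero.ne q
  have hdvd : (q : ℤ) ∣ (x.val : ℤ) + ((-x).val : ℤ) := by
    rw [← ZMod.intCast_zmod_eq_zero_iff_dvd]
    push_cast
    simp
  obtain ⟨e, he⟩ := hdvd
  exact ⟨-e, J_heckeMatrix_J_of_eq q hq _ _ e he⟩

theorem J_heckeDiagMatrix_J (q : ℕ) [NeZero q] :
    UpperHalfPlane.J * ModularForm.heckeDiagMatrix q * UpperHalfPlane.J
      = ModularForm.heckeDiagMatrix q := by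
  have hq : q ≠ 0 := NeZero.ne q
  ext i j
  fin_cases i <;> fin_cases j <;>
    simp [hq, Matrix.mul_apply, Fin.sum_univ_two]

/-- Slash by `J α_x J` equals slash by `α_(-x)` on cusp forms of level `Γ₀(N)`. -/
theorem slash_J_heckeMatrix_J (N q : ℕ) [NeZero q] (f : CuspForm (Gamma0 N) 2) (x : ZMod q) :
    (⇑f : ℍ → ℂ) ∣[(2 : ℤ)] (UpperHalfPlane.J * ModularForm.heckeMatrix q x.val * UpperHalfPlane.J)
      = (⇑f : ℍ → ℂ) ∣[(2 : ℤ)] ModularForm.heckeMatrix q (-x).val := by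
  obtain ⟨e, he⟩ := exists_J_heckeMatrix_J q x
  rw [he, SlashAction.slash_mul]
  congr 1
  exact SlashInvariantFormClass.slash_action_eq f _
    (Subgroup.mem_map_of_mem _ (transSL_mem_Gamma0 N e))

theorem sum_slash_J_heckeMatrix_J (N q : ℕ) [NeZero q] (f : CuspForm (Gamma0 N) 2) :
    ∑ x : ZMod q, (⇑f : ℍ → ℂ) ∣[(2 : ℤ)]
        (UpperHalfPlane.J * ModularForm.heckeMatrix q x.val * UpperHalfPlane.J)
      = ModularForm.heckeU 2 q ⇑f := by
  rw [heckeU_eq_sum_zmod]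
  rw [Finset.sum_congr rfl (fun x _ => slash_J_heckeMatrix_J N q f x)]
  exact Equiv.sum_comp (Equiv.neg (ZMod q))
    (fun x : ZMod q => (⇑f : ℍ → ℂ) ∣[(2 : ℤ)] ModularForm.heckeMatrix q x.val)

theorem sum_onePoint_zmod {M : Type*} [AddCommMonoid M] (q : ℕ) [NeZero q]
    (F : OnePoint (ZMod q) → M) :
    ∑ x, F x = F (OnePoint.infty) + ∑ x : ZMod q, F (x : OnePoint (ZMod q)) :=
  Fintype.sum_option F

theorem sum_slash_J_heckeRep_J (N ℓ : ℕ) [NeZero ℓ] (f : CuspForm (Gamma0 N) 2) :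
    ∑ x : OnePoint (ZMod ℓ), (⇑f : ℍ → ℂ) ∣[(2 : ℤ)]
        (UpperHalfPlane.J * heckeRep ℓ x * UpperHalfPlane.J)
      = ModularForm.heckeT 2 ℓ ⇑f := by
  rw [heckeT_eq_sum_onePoint, sum_onePoint_zmod, sum_onePoint_zmod]
  congr 1
  · show (⇑f : ℍ → ℂ) ∣[(2 : ℤ)]
        (UpperHalfPlane.J * ModularForm.heckeDiagMatrix ℓ * UpperHalfPlane.J)
      = (⇑f : ℍ → ℂ) ∣[(2 : ℤ)] ModularForm.heckeDiagMatrix ℓ
    rw [J_heckeDiagMatrix_J]
  · show ∑ x : ZMod ℓ, (⇑f : ℍ → ℂ) ∣[(2 : ℤ)]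
        (UpperHalfPlane.J * ModularForm.heckeMatrix ℓ x.val * UpperHalfPlane.J)
      = ∑ x : ZMod ℓ, (⇑f : ℍ → ℂ) ∣[(2 : ℤ)] ModularForm.heckeMatrix ℓ x.val
    rw [sum_slash_J_heckeMatrix_J, heckeU_eq_sum_zmod]

theorem det_heckeRep_pos (ℓ : ℕ) (x : OnePoint (ZMod ℓ)) : 0 < (heckeRep ℓ x).val.det := by
  have h1 := ModularForm.det_heckeDiagMatrix_pos ℓ
  have h2 := fun j => ModularForm.det_heckeMatrix_pos ℓ j
  simp only [Matrix.GeneralLinearGroup.val_det_apply] at h1 h2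
  cases x using OnePoint.rec with
  | infty => exact h1
  | coe j => exact h2 j.val

theorem det_heckeMatrix_pos' (q j : ℕ) : 0 < (ModularForm.heckeMatrix q j).val.det := by
  have h2 := ModularForm.det_heckeMatrix_pos q j
  simp only [Matrix.GeneralLinearGroup.val_det_apply] at h2
  exact h2

/-- Periods of `T_ℓ f`. -/
theorem periodMap_heckeTLin (N ℓ : ℕ) [NeZero N] (hℓ : ℓ.Prime) (hℓN : ¬ ℓ ∣ N)
    (f : CuspForm (Gamma0 N) 2) (γ : Gamma0 N)
    (σ : Equiv.Perm (OnePoint (ZMod ℓ))) (κ : OnePoint (ZMod ℓ) → Gamma0 N)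
    (hrw : IsRewriting N (heckeRep ℓ) γ σ κ) :
    haveI : NeZero ℓ := ⟨hℓ.ne_zero⟩
    periodMap N (CuspForm.heckeTLin 2 hℓ hℓN f) (Additive.ofMul γ)
        = ∑ x, periodMap N f (Additive.ofMul (κ x)) ∧
    periodMap N (CuspForm.heckeTLin 2 hℓ hℓN f) (Additive.ofMul (jConjGamma0 N γ))
        = ∑ x, periodMap N f (Additive.ofMul (jConjGamma0 N (κ x))) := by
  haveI : NeZero ℓ := ⟨hℓ.ne_zero⟩
  constructor
  · refine periodMap_eq_sum_of_isRewriting N (heckeRep ℓ) (det_heckeRep_pos ℓ) f _ ?_ γ σ κ hrw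
    rw [CuspForm.coe_heckeTLin_apply, heckeT_eq_sum_onePoint]
  · refine periodMap_eq_sum_of_isRewriting N
      (fun x => UpperHalfPlane.J * heckeRep ℓ x * UpperHalfPlane.J)
      (fun x => det_J_mul_mul_J_pos (det_heckeRep_pos ℓ x)) f _ ?_ (jConjGamma0 N γ) σ
      (fun x => jConjGamma0 N (κ x)) hrw.jConj
    rw [CuspForm.coe_heckeTLin_apply, sum_slash_J_heckeRep_J]

/-- Periods of `U_q f`. -/
theorem periodMap_heckeULin (N q : ℕ) [NeZero N] [NeZero q] (hqN : q ∣ N)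
    (f : CuspForm (Gamma0 N) 2) (γ : Gamma0 N)
    (σ : Equiv.Perm (ZMod q)) (κ : ZMod q → Gamma0 N)
    (hrw : IsRewriting N (fun x : ZMod q => ModularForm.heckeMatrix q x.val) γ σ κ) :
    periodMap N (CuspForm.heckeULin 2 hqN f) (Additive.ofMul γ)
        = ∑ x, periodMap N f (Additive.ofMul (κ x)) ∧
    periodMap N (CuspForm.heckeULin 2 hqN f) (Additive.ofMul (jConjGamma0 N γ))
        = ∑ x, periodMap N f (Additive.ofMul (jConjGamma0 N (κ x))) := by
  constructor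
  · refine periodMap_eq_sum_of_isRewriting N (fun x : ZMod q => ModularForm.heckeMatrix q x.val)
      (fun x => det_heckeMatrix_pos' q x.val) f _ ?_ γ σ κ hrw
    rw [CuspForm.coe_heckeULin_apply, heckeU_eq_sum_zmod]
  · refine periodMap_eq_sum_of_isRewriting N
      (fun x : ZMod q => UpperHalfPlane.J * ModularForm.heckeMatrix q x.val * UpperHalfPlane.J)
      (fun x => det_J_mul_mul_J_pos (det_heckeMatrix_pos' q x.val)) f _ ?_ (jConjGamma0 N γ) σ
      (fun x => jConjGamma0 N (κ x)) hrw.jConj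
    rw [CuspForm.coe_heckeULin_apply, sum_slash_J_heckeMatrix_J]

theorem periodHomPair_apply' (N : ℕ) [NeZero N] (f g : CuspForm (Gamma0 N) 2) (γ : Gamma0 N) :
    periodHomPair N (f, g) (Additive.ofMul γ)
      = periodMap N f (Additive.ofMul γ)
        + periodMap N f (Additive.ofMul (jConjGamma0 N γ))
        + (periodMap N g (Additive.ofMul γ)
        - periodMap N g (Additive.ofMul (jConjGamma0 N γ))) :=
  Fermat.Agent.H31.periodHomPair_apply (fun f => exists_hasEquivariantPrimitive N f) f g γ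

/-- **LB-PERIOD.** Hecke operators act on period classes by the transfer formula. -/
theorem heckePeriodStatement (N : ℕ) [NeZero N] : HeckePeriodStatement N := by
  constructor
  · intro ℓ hℓ hℓN f g γ σ κ hrw
    haveI : NeZero ℓ := ⟨hℓ.ne_zero⟩
    obtain ⟨hf1, hf2⟩ := periodMap_heckeTLin N ℓ hℓ hℓN f γ σ κ hrw
    obtain ⟨hg1, hg2⟩ := periodMap_heckeTLin N ℓ hℓ hℓN g γ σ κ hrw
    rw [periodHomPair_apply', hf1, hf2, hg1, hg2]
    simp only [periodHomPair_apply', Finset.sum_add_distrib, Finset.sum_sub_distrib]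
  · intro q hq hqN f g γ σ κ hrw
    haveI : NeZero q := ⟨hq.ne_zero⟩
    obtain ⟨hf1, hf2⟩ := periodMap_heckeULin N q hqN f γ σ κ hrw
    obtain ⟨hg1, hg2⟩ := periodMap_heckeULin N q hqN g γ σ κ hrw
    rw [periodHomPair_apply', hf1, hf2, hg1, hg2]
    simp only [periodHomPair_apply', Finset.sum_add_distrib, Finset.sum_sub_distrib]

end Fermat.Agent.H63
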