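import Fermat.Agent.H63.S16LB.Bridge
import Fermat.Agent.H63.S16LB.Period
import Fermat.Agent.H85.S16LiftStmt
import Fermat.Agent.H89.S16Shimura
import Fermat.Agent.S21
import Fermat.Agent.S23

/-!
# S16: the lower bound `n ∣ |T/I|`, final form (helper63, sub-lead of the lower bound)

Parts: Shimura class (helper89), lifting of parabolic classes (helper85), Hecke action on periods
(helper63), Eichler-Shimura S21 and the integral structure S23.
-/

set_option autoImplicit false

namespace Fermat.Agent.H63

open ModularCurve CuspForm

/-- Every Hecke polynomial acting as `0` on `S₂(Γ₀(p))` has Eisenstein value divisible by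
`n = eisensteinNumerator p`. -/
theorem lowerBoundStatement (p : ℕ) [Fact p.Prime] : LowerBoundStatement p :=
  lowerBound_of_parts p (Fermat.Agent.H89.shimuraStatement p)
    (Fermat.Agent.H85.liftStatement p (eisensteinNumerator p))
    (heckePeriodStatement p) (Fermat.Agent.S21.result p)

/-- **The lower bound of S16**, in helper15's form. -/
theorem s16LowerStatement (p : ℕ) [Fact p.Prime] : Fermat.Agent.H15.S16LowerStatement p :=
  s16Lower_of_lowerBound p (Fermat.Agent.S23.result p) (lowerBoundStatement p)

/-- **The lower bound of S16**, in helper20's kernel form. -/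
theorem s16LBKer (p : ℕ) [Fact p.Prime] : Fermat.Agent.H20.S16.LBKer p :=
  lbKer_of_lowerBound p (Fermat.Agent.S23.result p) (lowerBoundStatement p)

end Fermat.Agent.H63
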